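import Mathlib

/-!
# S14: shared definitions (coordinator file, helper70)

* `eExp p b`: least nonnegative residue of `b⁻²` modulo `p`;
* `cnt v x`: multiplicity of the prime `v` in the principal ideal `(x)`;
* `thetaTwo hζ = ∏_{b=1}^{p-1} (ζ^b - 1)^{e_b}`;
* `IsEigenChar hζ χ`: the class-group character `χ` satisfies `χ(σ_a c) = a² χ(c)`.
-/

set_option autoImplicit false

namespace Fermat.Agent.S14.H70

open NumberField IsDedekindDomain
open scoped nonZeroDivisors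

/-- `eExp p b` is the least nonnegative residue of `b⁻²` modulo `p`. -/
def eExp (p b : ℕ) : ℕ := (((b : ZMod p)⁻¹) ^ 2).val

section NF

variable {p : ℕ} [Fact p.Prime] {K : Type} [Field K] [NumberField K]

/-- multiplicity of the prime `v` in the principal ideal `(x)`. -/
noncomputable def cnt (v : HeightOneSpectrum (𝓞 K)) (x : 𝓞 K) : ℕ :=
  (Associates.mk v.asIdeal).count (Associates.mk (Ideal.span {x})).factors

/-- `θ₂ = ∏_{b=1}^{p-1} (ζ^b - 1)^{e_b}`, `e_b ≡ b⁻²`. -/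
noncomputable def thetaTwo {ζ : K} (hζ : IsPrimitiveRoot ζ p) : 𝓞 K :=
  haveI : NeZero p := ⟨(Fact.out : p.Prime).ne_zero⟩
  ∏ b ∈ Finset.Ico 1 p, (hζ.toInteger ^ b - 1) ^ eExp p b

/-- `χ` is an `ω²`-eigencharacter of the class group: `χ(σ_a c) = a² χ(c)`. -/
def IsEigenChar {ζ : K} (_hζ : IsPrimitiveRoot ζ p)
    (χ : ClassGroup (𝓞 K) →* Multiplicative (ZMod p)) : Prop :=
  ∀ (σ : K ≃ₐ[ℚ] K) (a : ℕ), σ ζ = ζ ^ a → ∀ I J : (Ideal (𝓞 K))⁰,
    (J : Ideal (𝓞 K)) = (I : Ideal (𝓞 K)).map (galRestrict ℤ ℚ K (𝓞 K) σ) →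
    χ (ClassGroup.mk0 J) = χ (ClassGroup.mk0 I) ^ (a ^ 2)

theorem eExp_mul_sq (p : ℕ) [Fact p.Prime] {b : ℕ} (hb : ¬ p ∣ b) :
    ((eExp p b : ℕ) : ZMod p) * (b : ZMod p) ^ 2 = 1 := by
  have hb0 : (b : ZMod p) ≠ 0 := by
    rwa [Ne, ZMod.natCast_eq_zero_iff]
  unfold eExp
  rw [ZMod.natCast_zmod_val, inv_pow, inv_mul_cancel₀ (pow_ne_zero 2 hb0)]

theorem eExp_lt (p : ℕ) [Fact p.Prime] (b : ℕ) : eExp p b < p := ZMod.val_lt _

end NF

end Fermat.Agent.S14.H70
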