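import Mathlib
import Fermat.Prelude.Def_ExtCitation_AdmissibleExtension_v2
import Fermat.Agent.S14.H70.Defs
import Fermat.Agent.S14.H52.Split
import Fermat.Agent.S14.H69.Kummer

/-!
# S14 (helper70): final assembly, from KEY, A3, A4 (as propositions) and the landed A1, A2
-/

set_option autoImplicit false
set_option linter.unusedSectionVars false
set_option linter.style.haveILetI false

namespace Fermat.Agent.S14.H70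

open ExtCitation IntermediateField NumberField IsDedekindDomain ValuationSubring

local notation "Qb" => AlgebraicClosure ℚ
local notation "G" => (AlgebraicClosure ℚ ≃ₐ[ℚ] AlgebraicClosure ℚ)

/-- statement of **KEY** (package E). -/
def KeyStmt (p : ℕ) [Fact p.Prime] : Prop :=
  ∀ (K : Type) [Field K] [NumberField K] [IsCyclotomicExtension {p} ℚ K] {ζ : K}
    (_hζ : IsPrimitiveRoot ζ p) (a : 𝓞 K), a ≠ 0 →
    (∀ (σ : K ≃ₐ[ℚ] K) (n : ℕ), σ ζ = ζ ^ n →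
      ∃ γ : K, σ (a : K) = γ ^ p * (a : K) ^ (n ^ 2)) →
    (∀ v : HeightOneSpectrum (𝓞 K), p ∣ cnt v a) →
    (∀ v : HeightOneSpectrum (𝓞 K), (p : 𝓞 K) ∈ v.asIdeal →
      ∀ (x : K) (u : (𝓞 K)ˣ), ((u : 𝓞 K) : K) = (a : K) * x ^ p →
        ∃ y : 𝓞 K, (u : 𝓞 K) - y ^ p ∈ v.asIdeal ^ 3) →
    ∃ β : K, β ^ p = (a : K)

/-- statement of **A3** (inertia). -/
def A3Stmt (p : ℕ) [Fact p.Prime] : Prop :=
  ∀ (K : IntermediateField ℚ Qb) [NumberField K] (ζ : Qb), IsPrimitiveRoot ζ p → ζ ∈ K →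
    ∀ (θ : Qb) (a : 𝓞 K), a ≠ 0 → θ ^ p = ((a : K) : Qb) → ∀ ℓ : ℕ, ℓ.Prime →
    (∀ A : ValuationSubring Qb, A.LiesOverPrime ℓ → ∀ σ ∈ A.inertiaSubgroupIn ℚ, σ θ = θ) →
    ∀ v : HeightOneSpectrum (𝓞 K), (ℓ : 𝓞 K) ∈ v.asIdeal → p ∣ cnt v a

/-- statement of **A4** (decomposition at `p`). -/
def A4Stmt (p : ℕ) [Fact p.Prime] : Prop :=
  ∀ (K : IntermediateField ℚ Qb) [NumberField K] (ζ : Qb), IsPrimitiveRoot ζ p → ζ ∈ K →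
    ∀ (θ : Qb) (a : 𝓞 K), a ≠ 0 → θ ^ p = ((a : K) : Qb) → ∀ ℓ : ℕ, ℓ.Prime →
    (∀ A : ValuationSubring Qb, A.LiesOverPrime ℓ →
      ∀ σ ∈ A.decompositionSubgroup ℚ, (∀ x ∈ K, σ x = x) → σ θ = θ) →
    ∀ v : HeightOneSpectrum (𝓞 K), (ℓ : 𝓞 K) ∈ v.asIdeal →
      p ∣ cnt v a ∧ ∀ (x : K) (u : (𝓞 K)ˣ), ((u : 𝓞 K) : K) = (a : K) * x ^ p →
        ∃ y : 𝓞 K, (u : 𝓞 K) - y ^ p ∈ v.asIdeal ^ 3

/-- every nonzero prime of a number field contains a rational prime. -/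
theorem exists_prime_mem {K : Type} [Field K] [NumberField K] (v : HeightOneSpectrum (𝓞 K)) :
    ∃ ℓ : ℕ, ℓ.Prime ∧ (ℓ : 𝓞 K) ∈ v.asIdeal := by
  have key : ∀ m : ℕ, m ≠ 0 → m ≠ 1 → (m : 𝓞 K) ∈ v.asIdeal →
      ∃ ℓ : ℕ, ℓ.Prime ∧ (ℓ : 𝓞 K) ∈ v.asIdeal := by
    intro m
    induction m using Nat.strong_induction_on with
    | _ m ih =>
      intro hm0 hm1 hm
      obtain ⟨ℓ, hℓ, k, rfl⟩ := Nat.exists_prime_and_dvd hm1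
      rw [Nat.cast_mul] at hm
      rcases v.isPrime.mem_or_mem hm with h | h
      · exact ⟨ℓ, hℓ, h⟩
      · have hk0 : k ≠ 0 := by
          rintro rfl
          exact hm0 (by simp)
        have hk1 : k ≠ 1 := by
          rintro rfl
          rw [Nat.cast_one] at h
          exact v.isPrime.ne_top ((Ideal.eq_top_iff_one _).mpr h)
        have hlt : k < ℓ * k := by
          have := hℓ.two_le
          have hk : 0 < k := Nat.pos_of_ne_zero hk0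
          nlinarith
        exact ih k hlt hk0 hk1 h
  refine key (Ideal.absNorm v.asIdeal) ?_ ?_ (Ideal.absNorm_mem _)
  · rw [Ne, Ideal.absNorm_eq_zero_iff]
    exact v.ne_bot
  · rw [Ne, Ideal.absNorm_eq_one_iff]
    exact v.isPrime.ne_top

variable {p : ℕ} [Fact p.Prime]

/-- **S14** from KEY, A3, A4. -/
theorem extVanishingCts_of (hp : 3 ≤ p) (hKEY : KeyStmt p) (hA3 : A3Stmt p) (hA4 : A4Stmt p) :
    ExtVanishingCts p := by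
  have hpp : p.Prime := Fact.out
  haveI : NeZero p := ⟨hpp.ne_zero⟩
  intro V _ _ _ _ C hadm
  by_contra hns
  have hnt : ∃ σ : G, cycloExp p σ = 1 ∧ ∃ v : V, σ • v ≠ v := by
    by_contra h
    apply hns
    refine H52.splitsGlobally_of_trivial C hadm.toIsAdmissibleExtension fun σ hσ v => ?_
    by_contra hv
    exact h ⟨σ, hσ, v, hv⟩
  obtain ⟨ζ, θ, hζ, hθ0, hθint, hθK, hθnK, hθfix, hθeig⟩ :=
    H69.exists_kummer_generator hp C hadm hnt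
  -- the field `K = ℚ(ζ)`
  have hζint : IsIntegral ℚ ζ := (hζ.isIntegral hpp.pos).tower_top
  haveI : FiniteDimensional ℚ ℚ⟮ζ⟯ := adjoin.finiteDimensional hζint
  haveI : NumberField ℚ⟮ζ⟯ := { to_charZero := inferInstance, to_finiteDimensional := inferInstance }
  haveI : IsGalois ℚ Qb := H52.isGalois_Qb
  haveI : Normal ℚ Qb := IsGalois.to_normal
  haveI : Algebra.IsIntegral ℚ Qb := ⟨fun x => Normal.isIntegral inferInstance x⟩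
  haveI : IsCyclotomicExtension {p} ℚ ℚ⟮ζ⟯ :=
    hζ.intermediateField_adjoin_isCyclotomicExtension ℚ
  have hζmem : ζ ∈ ℚ⟮ζ⟯ := mem_adjoin_simple_self ℚ ζ
  have hζK : IsPrimitiveRoot (⟨ζ, hζmem⟩ : ℚ⟮ζ⟯) p :=
    IsPrimitiveRoot.coe_submonoidClass_iff.mp hζ
  -- the integer `a = θ^p` of `K`
  have haint : IsIntegral ℤ (⟨θ ^ p, hθK⟩ : ℚ⟮ζ⟯) := by
    rw [← isIntegral_algebraMap_iff (algebraMap ℚ⟮ζ⟯ Qb).injective]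
    exact hθint.pow p
  let a : 𝓞 ℚ⟮ζ⟯ := ⟨⟨θ ^ p, hθK⟩, haint⟩
  have haθ : θ ^ p = ((a : ℚ⟮ζ⟯) : Qb) := rfl
  have ha0 : a ≠ 0 := by
    intro h
    have h1 : ((a : ℚ⟮ζ⟯) : Qb) = 0 := by rw [h]; rfl
    rw [← haθ] at h1
    exact hθ0 (pow_eq_zero_iff hpp.ne_zero |>.mp h1)
  -- valuations
  have hval_and_loc : ∀ v : HeightOneSpectrum (𝓞 ℚ⟮ζ⟯),
      p ∣ cnt v a ∧ ((p : 𝓞 ℚ⟮ζ⟯) ∈ v.asIdeal →
        ∀ (x : ℚ⟮ζ⟯) (u : (𝓞 ℚ⟮ζ⟯)ˣ), ((u : 𝓞 ℚ⟮ζ⟯) : ℚ⟮ζ⟯) = (a : ℚ⟮ζ⟯) * x ^ p →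
          ∃ y : 𝓞 ℚ⟮ζ⟯, (u : 𝓞 ℚ⟮ζ⟯) - y ^ p ∈ v.asIdeal ^ 3) := by
    intro v
    have hD : ∀ A : ValuationSubring Qb, A.LiesOverPrime p →
        ∀ σ ∈ A.decompositionSubgroup ℚ, (∀ x ∈ ℚ⟮ζ⟯, σ x = x) → σ θ = θ := by
      intro A hA σ hσ hσK
      have h1 : cycloExp p σ = 1 := (H69.map_zeta_eq_self_iff hζ σ).mp (hσK ζ hζmem)
      exact hθfix σ fun x => H69.smul_eq_of_mem_decomposition hadm A hA σ hσ h1 x
    have h4 := fun hv => hA4 ℚ⟮ζ⟯ ζ hζ hζmem θ a ha0 haθ p hpp hD v hv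
    refine ⟨?_, fun hv => (h4 hv).2⟩
    obtain ⟨ℓ, hℓ, hℓv⟩ := exists_prime_mem v
    by_cases hℓp : ℓ = p
    · subst hℓp
      exact (h4 hℓv).1
    · refine hA3 ℚ⟮ζ⟯ ζ hζ hζmem θ a ha0 haθ ℓ hℓ (fun A hA σ hσ => ?_) v hℓv
      exact hθfix σ (hadm.toIsAdmissibleExtension.unramified_outside ℓ hℓ hℓp A hA σ hσ)
  -- eigen-property
  haveI : IsGalois ℚ ℚ⟮ζ⟯ := IsCyclotomicExtension.isGalois {p} ℚ ℚ⟮ζ⟯
  have heig : ∀ (σ : ℚ⟮ζ⟯ ≃ₐ[ℚ] ℚ⟮ζ⟯) (n : ℕ), σ ⟨ζ, hζmem⟩ = (⟨ζ, hζmem⟩ : ℚ⟮ζ⟯) ^ n →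
      ∃ γ : ℚ⟮ζ⟯, σ (a : ℚ⟮ζ⟯) = γ ^ p * (a : ℚ⟮ζ⟯) ^ (n ^ 2) := by
    intro σ n hσ
    obtain ⟨τ, rfl⟩ := AlgEquiv.restrictNormalHom_surjective Qb σ
    have hcomm : ∀ x : ℚ⟮ζ⟯, ((AlgEquiv.restrictNormalHom ℚ⟮ζ⟯ τ x : ℚ⟮ζ⟯) : Qb) = τ (x : Qb) :=
      fun x => AlgEquiv.restrictNormal_commutes τ ℚ⟮ζ⟯ x
    have hτζ : τ ζ = ζ ^ n := by
      have := congrArg (fun x : ℚ⟮ζ⟯ => (x : Qb)) hσ
      simp only [hcomm] at this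
      simpa using this
    obtain ⟨γ, hγ, hγeq⟩ := hθeig τ n hτζ
    refine ⟨⟨γ, hγ⟩, Subtype.ext ?_⟩
    rw [hcomm]
    change τ (θ ^ p) = γ ^ p * (θ ^ p) ^ (n ^ 2)
    exact hγeq
  obtain ⟨β, hβ⟩ := hKEY ℚ⟮ζ⟯ hζK a ha0 heig (fun v => (hval_and_loc v).1)
    (fun v hv => (hval_and_loc v).2 hv)
  -- contradiction: θ ∈ K
  have hβ' : (β : Qb) ^ p = θ ^ p := by
    have := congrArg (fun x : ℚ⟮ζ⟯ => (x : Qb)) hβ
    rw [haθ]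
    simpa using this
  have hβ0 : (β : Qb) ≠ 0 := by
    intro h
    rw [h, zero_pow hpp.ne_zero] at hβ'
    exact hθ0 (pow_eq_zero_iff hpp.ne_zero |>.mp hβ'.symm)
  have h1 : (θ / (β : Qb)) ^ p = 1 := by
    rw [div_pow, hβ', div_self (pow_ne_zero _ hθ0)]
  obtain ⟨i, -, hi⟩ := hζ.eq_pow_of_pow_eq_one h1
  apply hθnK
  have h2 : θ = ζ ^ i * (β : Qb) := by
    rw [hi, div_mul_cancel₀ _ hβ0]
  rw [h2]
  exact ℚ⟮ζ⟯.mul_mem (pow_mem hζmem i) β.2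

end Fermat.Agent.S14.H70
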