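import Mathlib

/-!
# S14 (helper70): action of ring automorphisms on the class group, through `ClassGroup.mk0`
-/

set_option autoImplicit false
set_option linter.unusedSectionVars false

namespace Fermat.Agent.S14.H70

open scoped nonZeroDivisors

section General

variable {R : Type*} [CommRing R] [IsDedekindDomain R]

/-- The image of a nonzero ideal under a ring automorphism, as a nonzero ideal. -/
noncomputable def mapNZ (g : R ≃+* R) : (Ideal R)⁰ →* (Ideal R)⁰ where
  toFun I := ⟨(I : Ideal R).map g, by
    rw [mem_nonZeroDivisors_iff_ne_zero, Ne, Ideal.zero_eq_bot,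
      Ideal.map_eq_bot_iff_of_injective g.injective]
    exact mem_nonZeroDivisors_iff_ne_zero.mp I.2⟩
  map_one' := by
    apply Subtype.ext
    simp [Ideal.one_eq_top, Ideal.map_top]
  map_mul' I J := by
    apply Subtype.ext
    simp [Ideal.map_mul]

@[simp] theorem coe_mapNZ (g : R ≃+* R) (I : (Ideal R)⁰) :
    ((mapNZ g I : (Ideal R)⁰) : Ideal R) = (I : Ideal R).map g := rfl

theorem mk0_mapNZ_congr (g : R ≃+* R) {I J : (Ideal R)⁰}
    (h : ClassGroup.mk0 I = ClassGroup.mk0 J) :
    ClassGroup.mk0 (mapNZ g I) = ClassGroup.mk0 (mapNZ g J) := by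
  rw [ClassGroup.mk0_eq_mk0_iff] at h ⊢
  obtain ⟨x, y, hx, hy, hxy⟩ := h
  refine ⟨g x, g y, by simpa using hx, by simpa using hy, ?_⟩
  have := congrArg (Ideal.map g) hxy
  simpa [Ideal.map_mul, Ideal.map_span, Set.image_singleton] using this

/-- The automorphism of the class group induced by a ring automorphism, characterised on
classes of nonzero ideals by `clMap_mk0`. -/
noncomputable def clMap (g : R ≃+* R) : ClassGroup R →* ClassGroup R where
  toFun x := ClassGroup.mk0 (mapNZ g (Classical.choose (ClassGroup.mk0_surjective x)))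
  map_one' := by
    have h := Classical.choose_spec (ClassGroup.mk0_surjective (1 : ClassGroup R))
    have h2 := mk0_mapNZ_congr g (h.trans (map_one ClassGroup.mk0).symm)
    simpa using h2
  map_mul' x y := by
    have hx := Classical.choose_spec (ClassGroup.mk0_surjective x)
    have hy := Classical.choose_spec (ClassGroup.mk0_surjective y)
    have hxy := Classical.choose_spec (ClassGroup.mk0_surjective (x * y))
    have h : ClassGroup.mk0 (Classical.choose (ClassGroup.mk0_surjective (x * y))) =
        ClassGroup.mk0 (Classical.choose (ClassGroup.mk0_surjective x) *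
          Classical.choose (ClassGroup.mk0_surjective y)) := by
      rw [hxy, map_mul, hx, hy]
    have h2 := mk0_mapNZ_congr g h
    simpa [map_mul] using h2

theorem clMap_mk0 (g : R ≃+* R) (I : (Ideal R)⁰) :
    clMap g (ClassGroup.mk0 I) = ClassGroup.mk0 (mapNZ g I) :=
  mk0_mapNZ_congr g (Classical.choose_spec (ClassGroup.mk0_surjective (ClassGroup.mk0 I)))

theorem clMap_mk0_of_eq (g : R ≃+* R) (I J : (Ideal R)⁰)
    (h : (J : Ideal R) = (I : Ideal R).map g) :
    clMap g (ClassGroup.mk0 I) = ClassGroup.mk0 J := by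
  rw [clMap_mk0]
  congr 1
  exact Subtype.ext h.symm

theorem clMap_comp (g h : R ≃+* R) (x : ClassGroup R) :
    clMap g (clMap h x) = clMap (h.trans g) x := by
  obtain ⟨I, rfl⟩ := ClassGroup.mk0_surjective x
  rw [clMap_mk0, clMap_mk0, clMap_mk0]
  congr 1
  apply Subtype.ext
  simp only [coe_mapNZ]
  change Ideal.map (g : R →+* R) (Ideal.map (h : R →+* R) (I : Ideal R)) =
    Ideal.map ((h.trans g : R ≃+* R) : R →+* R) (I : Ideal R)
  rw [Ideal.map_map]
  rfl

end General

end Fermat.Agent.S14.H70
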