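import Mathlib
import Fermat.Agent.S14.H70.Defs
import Fermat.Agent.S14.H70.ClassAction

/-!
# S14 (helper70): an `ω²`-eigenclass of order `p` is trivial if there is no nontrivial
`ω²`-eigencharacter of the class group.

`eTw = ∑_σ [χ(σ)⁻²] σ` acts on the class group.  If every eigencharacter is trivial then
`eTw Cl ⊆ Cl^p`; for an eigenclass `x` of order dividing `p` one has `eTw x = x⁻¹`, hence
`x ∈ ⋂ Cl^{p^k}` and `x = 1`.
-/

set_option autoImplicit false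
set_option linter.unusedSectionVars false
set_option linter.style.haveILetI false

namespace Fermat.Agent.S14.H70

open NumberField IsDedekindDomain
open scoped nonZeroDivisors

section PurePow

/-- In `Multiplicative (ZMod p)` every element has order dividing `p`. -/
theorem multiplicative_zmod_pow (p : ℕ) (m : Multiplicative (ZMod p)) : m ^ p = 1 := by
  apply Multiplicative.toAdd.injective
  simp

theorem exists_addHom_ne_zero (p : ℕ) [Fact p.Prime] {V : Type*} [AddCommGroup V]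
    (hV : ∀ v : V, p • v = 0) (v : V) (hv : v ≠ 0) : ∃ f : V →+ ZMod p, f v ≠ 0 := by
  letI inst : Module (ZMod p) V := AddCommGroup.zmodModule hV
  by_contra hcon
  have hcon' : ∀ f : V →+ ZMod p, f v = 0 := fun f => by
    by_contra hf
    exact hcon ⟨f, hf⟩
  have hfree : Module.Free (ZMod p) V := Module.Free.of_divisionRing (ZMod p) V
  have hproj : Module.Projective (ZMod p) V := @Module.Projective.of_free _ _ _ _ inst hfree
  have key := @Module.forall_dual_apply_eq_zero_iff V _ (ZMod p) _ inst hproj v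
  exact hv (key.mp fun φ => hcon' φ.toAddMonoidHom)

/-- Characters with values in `ℤ/p` separate non-`p`-th powers of a commutative group. -/
theorem exists_char_ne_one_of_not_pow (p : ℕ) [Fact p.Prime] {A : Type*} [CommGroup A]
    (z : A) (hz : ¬ ∃ y : A, z = y ^ p) :
    ∃ ℓ : A →* Multiplicative (ZMod p), ℓ z ≠ 1 := by
  have hB : ∀ b : Additive (A ⧸ (powMonoidHom p : A →* A).range), p • b = 0 := by
    intro b
    obtain ⟨a, ha⟩ := QuotientGroup.mk_surjective (Additive.toMul b)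
    have : b = Additive.ofMul (QuotientGroup.mk a) := by rw [ha]; rfl
    rw [this]
    change Additive.ofMul ((QuotientGroup.mk a : A ⧸ (powMonoidHom p : A →* A).range) ^ p) =
      Additive.ofMul 1
    congr 1
    rw [← QuotientGroup.mk_pow, QuotientGroup.eq_one_iff]
    exact ⟨a, rfl⟩
  have hzb : (Additive.ofMul (QuotientGroup.mk z) :
      Additive (A ⧸ (powMonoidHom p : A →* A).range)) ≠ 0 := by
    intro h
    have h1 : (QuotientGroup.mk z : A ⧸ (powMonoidHom p : A →* A).range) = 1 := h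
    rw [QuotientGroup.eq_one_iff] at h1
    obtain ⟨y, hy⟩ := h1
    exact hz ⟨y, hy.symm⟩
  obtain ⟨f, hf⟩ := exists_addHom_ne_zero p hB _ hzb
  refine ⟨MonoidHom.mk' (fun a => Multiplicative.ofAdd (f (Additive.ofMul
    (QuotientGroup.mk a : A ⧸ (powMonoidHom p : A →* A).range)))) ?_, ?_⟩
  · intro a b
    have : (Additive.ofMul (QuotientGroup.mk (a * b) : A ⧸ (powMonoidHom p : A →* A).range)) =
        Additive.ofMul (QuotientGroup.mk a : A ⧸ (powMonoidHom p : A →* A).range) +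
          Additive.ofMul (QuotientGroup.mk b : A ⧸ (powMonoidHom p : A →* A).range) :=
      rfl
    rw [this, map_add]
    rfl
  · intro h
    exact hf h

end PurePow

section Cyc

variable {p : ℕ} [Fact p.Prime] {K : Type} [Field K] [NumberField K]

/-- The ring automorphism of `𝓞 K` induced by `σ`. -/
noncomputable def gRing (σ : K ≃ₐ[ℚ] K) : 𝓞 K ≃+* 𝓞 K :=
  (galRestrict ℤ ℚ K (𝓞 K) σ).toRingEquiv

theorem gRing_apply (σ : K ≃ₐ[ℚ] K) (x : 𝓞 K) : ((gRing σ x : 𝓞 K) : K) = σ (x : K) :=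
  algebraMap_galRestrict_apply ℤ σ x

theorem gRing_mul (σ τ : K ≃ₐ[ℚ] K) : gRing (σ * τ) = (gRing τ).trans (gRing σ) := by
  ext x
  change ((gRing (σ * τ) x : 𝓞 K) : K) = ((gRing σ (gRing τ x) : 𝓞 K) : K)
  rw [gRing_apply, gRing_apply, gRing_apply]
  rfl

theorem map_gRing (σ : K ≃ₐ[ℚ] K) (I : Ideal (𝓞 K)) :
    I.map (gRing σ) = I.map (galRestrict ℤ ℚ K (𝓞 K) σ) := rfl

variable {ζ : K} (hζ : IsPrimitiveRoot ζ p)

/-- The exponent of `σ` on `ζ`, as a natural number `< p`. -/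
noncomputable def gexp (σ : K ≃ₐ[ℚ] K) : ℕ :=
  haveI : NeZero p := ⟨(Fact.out : p.Prime).ne_zero⟩
  ((hζ.autToPow ℚ σ : (ZMod p)ˣ) : ZMod p).val

theorem gexp_spec (σ : K ≃ₐ[ℚ] K) : σ ζ = ζ ^ gexp hζ σ := by
  haveI : NeZero p := ⟨(Fact.out : p.Prime).ne_zero⟩
  exact (hζ.autToPow_spec ℚ σ).symm

theorem natCast_gexp (σ : K ≃ₐ[ℚ] K) :
    haveI : NeZero p := ⟨(Fact.out : p.Prime).ne_zero⟩
    ((gexp hζ σ : ℕ) : ZMod p) = ((hζ.autToPow ℚ σ : (ZMod p)ˣ) : ZMod p) := by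
  haveI : NeZero p := ⟨(Fact.out : p.Prime).ne_zero⟩
  unfold gexp
  rw [ZMod.natCast_zmod_val]

theorem natCast_eq_of_apply (σ : K ≃ₐ[ℚ] K) {a : ℕ} (h : σ ζ = ζ ^ a) :
    (a : ZMod p) = ((gexp hζ σ : ℕ) : ZMod p) := by
  have hp : 0 < p := (Fact.out : p.Prime).pos
  rw [gexp_spec hζ σ] at h
  have e : orderOf ζ = p := hζ.eq_orderOf.symm
  have h1 : ζ ^ (gexp hζ σ % p) = ζ ^ (a % p) := by
    have e1 := pow_mod_orderOf ζ (gexp hζ σ)
    have e2 := pow_mod_orderOf ζ a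
    rw [e] at e1 e2
    rw [e1, e2]
    exact h
  have h2 := hζ.pow_inj (Nat.mod_lt _ hp) (Nat.mod_lt _ hp) h1
  exact ((ZMod.natCast_eq_natCast_iff _ _ _).mpr h2).symm

theorem gexp_not_dvd (σ : K ≃ₐ[ℚ] K) : ¬ p ∣ gexp hζ σ := by
  haveI : NeZero p := ⟨(Fact.out : p.Prime).ne_zero⟩
  intro h
  have h1 : ((gexp hζ σ : ℕ) : ZMod p) = 0 := (ZMod.natCast_eq_zero_iff _ _).mpr h
  rw [natCast_gexp] at h1
  exact (hζ.autToPow ℚ σ).ne_zero h1

/-- `eTw = ∑_σ [χ(σ)⁻²] σ` on the class group. -/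
noncomputable def eTw : ClassGroup (𝓞 K) →* ClassGroup (𝓞 K) :=
  ∏ σ : K ≃ₐ[ℚ] K, (clMap (gRing σ)) ^ eExp p (gexp hζ σ)

theorem eTw_apply (x : ClassGroup (𝓞 K)) :
    eTw hζ x = ∏ σ : K ≃ₐ[ℚ] K, (clMap (gRing σ) x) ^ eExp p (gexp hζ σ) := by
  unfold eTw
  rw [MonoidHom.finsetProd_apply]
  rfl

/-- the congruence `[χ(ρτ⁻¹)⁻²] ≡ a² [χ(ρ)⁻²]` when `τ ζ = ζ^a`. -/
theorem eExp_shift (τ ρ : K ≃ₐ[ℚ] K) {a : ℕ} (h : τ ζ = ζ ^ a) :
    ((eExp p (gexp hζ (ρ * τ⁻¹)) : ℕ) : ZMod p) =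
      ((a ^ 2 * eExp p (gexp hζ ρ) : ℕ) : ZMod p) := by
  haveI : NeZero p := ⟨(Fact.out : p.Prime).ne_zero⟩
  have ha : (a : ZMod p) = ((hζ.autToPow ℚ τ : (ZMod p)ˣ) : ZMod p) := by
    rw [natCast_eq_of_apply hζ τ h, natCast_gexp]
  unfold eExp
  rw [ZMod.natCast_zmod_val, Nat.cast_mul, Nat.cast_pow, ZMod.natCast_zmod_val, natCast_gexp,
    natCast_gexp, map_mul, map_inv, Units.val_mul, Units.val_inv_eq_inv_val, ha]
  have h1 : ((hζ.autToPow ℚ τ : (ZMod p)ˣ) : ZMod p) ≠ 0 := (hζ.autToPow ℚ τ).ne_zero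
  have h2 : ((hζ.autToPow ℚ ρ : (ZMod p)ˣ) : ZMod p) ≠ 0 := (hζ.autToPow ℚ ρ).ne_zero
  field_simp


/-- index shift: `eTw (τ x) = (eTw x)^{a²} · y^p` when `τ ζ = ζ^a`. -/
theorem eTw_clMap (τ : K ≃ₐ[ℚ] K) {a : ℕ} (h : τ ζ = ζ ^ a) (x : ClassGroup (𝓞 K)) :
    ∃ y : ClassGroup (𝓞 K), eTw hζ (clMap (gRing τ) x) = eTw hζ x ^ (a ^ 2) * y ^ p := by
  have hcong : ∀ ρ : K ≃ₐ[ℚ] K, ∃ t : ℤ,
      ((eExp p (gexp hζ (ρ * τ⁻¹)) : ℕ) : ℤ) = ((a ^ 2 * eExp p (gexp hζ ρ) : ℕ) : ℤ) + p * t := by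
    intro ρ
    have h1 := eExp_shift hζ τ ρ h
    have h2 : ((((eExp p (gexp hζ (ρ * τ⁻¹)) : ℕ) : ℤ)) : ZMod p) =
        ((((a ^ 2 * eExp p (gexp hζ ρ) : ℕ) : ℤ)) : ZMod p) := by
      push_cast
      push_cast at h1
      exact h1
    have h3 := (ZMod.intCast_eq_intCast_iff_dvd_sub _ _ p).mp h2
    obtain ⟨t, ht⟩ := h3
    exact ⟨-t, by linarith⟩
  choose t ht using hcong
  refine ⟨∏ ρ : K ≃ₐ[ℚ] K, (clMap (gRing ρ) x) ^ (t ρ), ?_⟩
  rw [eTw_apply, eTw_apply]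
  have e1 : ∏ σ : K ≃ₐ[ℚ] K, (clMap (gRing σ) (clMap (gRing τ) x)) ^ eExp p (gexp hζ σ) =
      ∏ ρ : K ≃ₐ[ℚ] K, (clMap (gRing ρ) x) ^ eExp p (gexp hζ (ρ * τ⁻¹)) := by
    refine Fintype.prod_equiv (Equiv.mulRight τ) _ _ fun σ => ?_
    rw [clMap_comp, ← gRing_mul]
    simp
  rw [e1, ← Finset.prod_pow, ← Finset.prod_pow, ← Finset.prod_mul_distrib]
  refine Finset.prod_congr rfl fun ρ _ => ?_
  rw [← zpow_natCast (clMap (gRing ρ) x) (eExp p (gexp hζ (ρ * τ⁻¹))), ht ρ, zpow_add,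
    zpow_natCast, ← pow_mul, mul_comm (eExp p (gexp hζ ρ)) (a ^ 2), ← zpow_natCast _ p,
    ← zpow_mul, mul_comm (t ρ) (p : ℤ)]

/-- on an eigenclass of order dividing `p`, `eTw` is inversion. -/
theorem eTw_eigen [IsCyclotomicExtension {p} ℚ K] (x : ClassGroup (𝓞 K)) (hx : x ^ p = 1)
    (hxe : ∀ σ : K ≃ₐ[ℚ] K, clMap (gRing σ) x = x ^ (gexp hζ σ ^ 2)) : eTw hζ x = x⁻¹ := by
  haveI : NeZero p := ⟨(Fact.out : p.Prime).ne_zero⟩
  have hp : p.Prime := Fact.out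
  have hterm : ∀ σ : K ≃ₐ[ℚ] K, (clMap (gRing σ) x) ^ eExp p (gexp hζ σ) = x := by
    intro σ
    rw [hxe σ, ← pow_mul]
    have h1 : ((gexp hζ σ ^ 2 * eExp p (gexp hζ σ) : ℕ) : ZMod p) = ((1 : ℕ) : ZMod p) := by
      have := eExp_mul_sq p (gexp_not_dvd hζ σ)
      push_cast
      rw [mul_comm]
      exact this
    have h2 := (ZMod.natCast_eq_natCast_iff _ _ _).mp h1
    have h3 : x ^ (gexp hζ σ ^ 2 * eExp p (gexp hζ σ)) = x ^ 1 := by
      rw [← Nat.mod_add_div (gexp hζ σ ^ 2 * eExp p (gexp hζ σ)) p, pow_add, pow_mul, hx,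
        one_pow, mul_one, h2, Nat.mod_eq_of_lt hp.one_lt]
    rw [h3, pow_one]
  rw [eTw_apply, Finset.prod_congr rfl fun σ _ => hterm σ, Finset.prod_const, Finset.card_univ]
  haveI : IsGalois ℚ K := IsCyclotomicExtension.isGalois {p} ℚ K
  have hcard : Fintype.card (K ≃ₐ[ℚ] K) = p - 1 := by
    rw [← Nat.card_eq_fintype_card, IsGalois.card_aut_eq_finrank,
      IsCyclotomicExtension.finrank K (Polynomial.cyclotomic.irreducible_rat hp.pos),
      Nat.totient_prime hp]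
  rw [hcard, eq_inv_iff_mul_eq_one, ← pow_succ, Nat.sub_add_cancel hp.one_le, hx]

/-- If there is no nontrivial eigencharacter then `eTw` takes values in `p`-th powers. -/
theorem eTw_mem_pow (H : ∀ χ : ClassGroup (𝓞 K) →* Multiplicative (ZMod p),
      IsEigenChar hζ χ → χ = 1) (x : ClassGroup (𝓞 K)) :
    ∃ y : ClassGroup (𝓞 K), eTw hζ x = y ^ p := by
  by_contra hcon
  obtain ⟨ℓ, hℓ⟩ := exists_char_ne_one_of_not_pow p (eTw hζ x) hcon
  have hχ : IsEigenChar hζ (ℓ.comp (eTw hζ)) := by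
    intro σ a hσ I J hJ
    have e1 : ClassGroup.mk0 J = clMap (gRing σ) (ClassGroup.mk0 I) :=
      (clMap_mk0_of_eq (gRing σ) I J hJ).symm
    obtain ⟨y, hy⟩ := eTw_clMap hζ σ hσ (ClassGroup.mk0 I)
    rw [MonoidHom.comp_apply, MonoidHom.comp_apply, e1, hy, map_mul, map_pow, map_pow,
      multiplicative_zmod_pow, mul_one]
  have h1 := H _ hχ
  apply hℓ
  have h2 := congrArg (fun f => f x) h1
  simpa using h2

theorem iterate_eTw_mem_pow (H : ∀ χ : ClassGroup (𝓞 K) →* Multiplicative (ZMod p),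
      IsEigenChar hζ χ → χ = 1) (k : ℕ) (x : ClassGroup (𝓞 K)) :
    ∃ y : ClassGroup (𝓞 K), (eTw hζ)^[k] x = y ^ (p ^ k) := by
  induction k generalizing x with
  | zero => exact ⟨x, by simp⟩
  | succ k ih =>
    obtain ⟨y, hy⟩ := ih x
    obtain ⟨w, hw⟩ := eTw_mem_pow hζ H y
    refine ⟨w, ?_⟩
    rw [Function.iterate_succ_apply', hy, map_pow, hw, ← pow_mul, pow_succ, mul_comm]

/-- **CLASS** (abstract form): if there is no nontrivial `ω²`-eigencharacter of the class group,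
then every `ω²`-eigenclass killed by `p` is trivial. -/
theorem class_eq_one_of_noEigenChar [IsCyclotomicExtension {p} ℚ K]
    (H : ∀ χ : ClassGroup (𝓞 K) →* Multiplicative (ZMod p), IsEigenChar hζ χ → χ = 1)
    (x : ClassGroup (𝓞 K)) (hx : x ^ p = 1)
    (hxe : ∀ σ : K ≃ₐ[ℚ] K, clMap (gRing σ) x = x ^ (gexp hζ σ ^ 2)) : x = 1 := by
  have hp : p.Prime := Fact.out
  have h1 : eTw hζ x = x⁻¹ := eTw_eigen hζ x hx hxe
  have h2 : eTw hζ (eTw hζ x) = x := by rw [h1, map_inv, h1, inv_inv]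
  have h3 : ∀ k : ℕ, (eTw hζ)^[2 * k] x = x := by
    intro k
    induction k with
    | zero => rfl
    | succ k ih =>
      rw [Nat.mul_succ, Function.iterate_add_apply]
      change (eTw hζ)^[2 * k] (eTw hζ (eTw hζ x)) = x
      rw [h2, ih]
  set h := Nat.card (ClassGroup (𝓞 K)) with hh
  have hh0 : h ≠ 0 := Nat.card_pos.ne'
  set e := h.factorization p with he
  obtain ⟨y, hy⟩ := iterate_eTw_mem_pow hζ H (2 * e) x
  rw [h3 e] at hy
  have h4 : x ^ (h / p ^ e) = 1 := by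
    rw [hy, ← pow_mul]
    have : p ^ (2 * e) * (h / p ^ e) = h * p ^ e := by
      have hd : p ^ e * (h / p ^ e) = h := Nat.ordProj_mul_ordCompl_eq_self h p
      calc p ^ (2 * e) * (h / p ^ e) = p ^ e * (p ^ e * (h / p ^ e)) := by
            rw [two_mul, pow_add]; ring
        _ = h * p ^ e := by rw [hd, mul_comm]
    rw [this, pow_mul, hh, pow_card_eq_one', one_pow]
  have h5 : Nat.Coprime p (h / p ^ e) := Nat.coprime_ordCompl hp hh0
  have h6 : orderOf x ∣ p := orderOf_dvd_of_pow_eq_one hx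
  have h7 : orderOf x ∣ h / p ^ e := orderOf_dvd_of_pow_eq_one h4
  have h8 : orderOf x = 1 := Nat.eq_one_of_dvd_coprimes h5 h6 h7
  exact orderOf_eq_one_iff.mp h8

end Cyc

end Fermat.Agent.S14.H70
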