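import Mathlib
import Fermat.Agent.S14.H70.Defs

/-!
# S14 (helper70): glue between the unit-side element `∏ (1+ζ^b)^{e_b}` and `θ₂ = ∏ (ζ^b-1)^{e_b}`

`∏ (1+ζ^b)^{e_b} · θ₂ = ∏ (ζ^{2b}-1)^{e_b} = θ₂⁴ / W^p`, hence `θ₂` is not a `p`-th power if
`∏ (1+ζ^b)^{e_b}` is not.
-/

set_option autoImplicit false
set_option linter.unusedSectionVars false
set_option linter.style.haveILetI false

namespace Fermat.Agent.S14.H70

open NumberField

section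

variable {p : ℕ} [Fact p.Prime]

/-- the congruence `4 e_{2b} ≡ e_b`. -/
theorem four_mul_eExp_mod (hp : 3 ≤ p) (b : ℕ) :
    (4 * eExp p ((2 * b) % p)) % p = eExp p b := by
  have hpp : p.Prime := Fact.out
  have h2 : (2 : ZMod p) ≠ 0 := by
    have : ((2 : ℕ) : ZMod p) ≠ 0 := by
      rw [Ne, ZMod.natCast_eq_zero_iff]
      intro h
      have := Nat.le_of_dvd (by norm_num) h
      omega
    simpa using this
  have h1 : ((4 * eExp p ((2 * b) % p) : ℕ) : ZMod p) = ((eExp p b : ℕ) : ZMod p) := by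
    unfold eExp
    rw [Nat.cast_mul, ZMod.natCast_zmod_val, ZMod.natCast_zmod_val, ZMod.natCast_mod]
    push_cast
    rw [mul_inv, mul_pow]
    have h4 : (4 : ZMod p) = 2 ^ 2 := by norm_num
    rw [h4, ← mul_assoc, ← mul_pow, mul_inv_cancel₀ h2, one_pow, one_mul]
  have h3 := (ZMod.natCast_eq_natCast_iff' _ _ _).mp h1
  rw [h3, Nat.mod_eq_of_lt (eExp_lt p b)]

theorem two_mul_mod_mem (hp : 3 ≤ p) {b : ℕ} (hb : b ∈ Finset.Ico 1 p) :
    (2 * b) % p ∈ Finset.Ico 1 p := by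
  have hpp : p.Prime := Fact.out
  rw [Finset.mem_Ico] at hb ⊢
  refine ⟨?_, Nat.mod_lt _ hpp.pos⟩
  rw [Nat.one_le_iff_ne_zero, Ne, ← Nat.dvd_iff_mod_eq_zero, hpp.dvd_mul]
  rintro (h | h)
  · have := Nat.le_of_dvd (by norm_num) h
    omega
  · have := Nat.le_of_dvd (by omega) h
    omega

theorem two_mul_mod_injOn (hp : 3 ≤ p) :
    Set.InjOn (fun b : ℕ => (2 * b) % p) (Finset.Ico 1 p : Set ℕ) := by
  have hpp : p.Prime := Fact.out
  intro b hb c hc h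
  rw [Finset.coe_Ico, Set.mem_Ico] at hb hc
  have h1 : 2 * b ≡ 2 * c [MOD p] := h
  have hcop : Nat.Coprime p 2 := by
    rw [Nat.coprime_primes hpp Nat.prime_two]
    omega
  have h2 : b ≡ c [MOD p] := Nat.ModEq.cancel_left_of_coprime (by simpa [Nat.coprime_iff_gcd_eq_one] using hcop) h1
  exact Nat.ModEq.eq_of_lt_of_lt h2 hb.2 hc.2

variable {K : Type} [Field K]

/-- reindexing `∏ (ζ^{2b}-1)^{e_b} = ∏ (ζ^c-1)^{(4 e_c) % p}`. -/
theorem prod_double (hp : 3 ≤ p) {ζ : K} (hζ : IsPrimitiveRoot ζ p) :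
    ∏ b ∈ Finset.Ico 1 p, (ζ ^ (2 * b) - 1) ^ eExp p b =
      ∏ c ∈ Finset.Ico 1 p, (ζ ^ c - 1) ^ ((4 * eExp p c) % p) := by
  refine Finset.prod_nbij (fun b => (2 * b) % p) (fun b hb => two_mul_mod_mem hp hb)
    (two_mul_mod_injOn hp) ?_ ?_
  · exact Finset.surjOn_of_injOn_of_card_le _ (fun b hb => two_mul_mod_mem hp hb)
      (two_mul_mod_injOn hp) le_rfl
  · intro b _
    have e1 : ζ ^ ((2 * b) % p) = ζ ^ (2 * b) := by
      conv_rhs => rw [← Nat.mod_add_div (2 * b) p, pow_add, pow_mul, hζ.pow_eq_one, one_pow,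
        mul_one]
    change (ζ ^ (2 * b) - 1) ^ eExp p b =
      (ζ ^ ((2 * b) % p) - 1) ^ ((4 * eExp p ((2 * b) % p)) % p)
    rw [four_mul_eExp_mod hp b, e1]

/-- **Glue**: if `∏ (1+ζ^b)^{e_b}` is not a `p`-th power then neither is `∏ (ζ^b-1)^{e_b}`. -/
theorem prod_sub_one_not_pow (hp : 3 ≤ p) {ζ : K} (hζ : IsPrimitiveRoot ζ p)
    (hη : ∀ x : K, x ^ p ≠ ∏ b ∈ Finset.Ico 1 p, (1 + ζ ^ b) ^ eExp p b) (x : K) :
    x ^ p ≠ ∏ b ∈ Finset.Ico 1 p, (ζ ^ b - 1) ^ eExp p b := by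
  have hpp : p.Prime := Fact.out
  intro hx
  set θ : K := ∏ b ∈ Finset.Ico 1 p, (ζ ^ b - 1) ^ eExp p b with hθ
  set W : K := ∏ c ∈ Finset.Ico 1 p, (ζ ^ c - 1) ^ ((4 * eExp p c) / p) with hW
  have hne : ∀ c ∈ Finset.Ico 1 p, ζ ^ c - 1 ≠ 0 := by
    intro c hc
    rw [Finset.mem_Ico] at hc
    exact sub_ne_zero.mpr (hζ.pow_ne_one_of_pos_of_lt (by omega) hc.2)
  have hθ0 : θ ≠ 0 := Finset.prod_ne_zero_iff.mpr fun c hc => pow_ne_zero _ (hne c hc)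
  have hW0 : W ≠ 0 := Finset.prod_ne_zero_iff.mpr fun c hc => pow_ne_zero _ (hne c hc)
  -- (1) η' * θ = ∏ (ζ^{2b} - 1)^{e_b}
  have h1 : (∏ b ∈ Finset.Ico 1 p, (1 + ζ ^ b) ^ eExp p b) * θ =
      ∏ b ∈ Finset.Ico 1 p, (ζ ^ (2 * b) - 1) ^ eExp p b := by
    rw [hθ, ← Finset.prod_mul_distrib]
    refine Finset.prod_congr rfl fun b _ => ?_
    rw [← mul_pow]
    congr 1
    ring
  -- (2) (∏ (ζ^{2b} - 1)^{e_b}) * W^p = θ^4
  have h2 : (∏ b ∈ Finset.Ico 1 p, (ζ ^ (2 * b) - 1) ^ eExp p b) * W ^ p = θ ^ 4 := by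
    rw [prod_double hp hζ, hW, hθ, ← Finset.prod_pow, ← Finset.prod_pow, ← Finset.prod_mul_distrib]
    refine Finset.prod_congr rfl fun c _ => ?_
    rw [← pow_mul, ← pow_mul, ← pow_add, mul_comm (eExp p c) 4, mul_comm (4 * eExp p c / p) p,
      Nat.mod_add_div]
  apply hη (x ^ 3 / W)
  have h3 : (∏ b ∈ Finset.Ico 1 p, (1 + ζ ^ b) ^ eExp p b) * θ * W ^ p = θ ^ 4 := by
    rw [h1, h2]
  have h4 : (∏ b ∈ Finset.Ico 1 p, (1 + ζ ^ b) ^ eExp p b) = θ ^ 3 / W ^ p := by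
    rw [eq_div_iff (pow_ne_zero _ hW0)]
    have : (∏ b ∈ Finset.Ico 1 p, (1 + ζ ^ b) ^ eExp p b) * W ^ p * θ = θ ^ 3 * θ := by
      rw [← pow_succ]
      rw [← h3]
      ring
    exact mul_right_cancel₀ hθ0 this
  rw [h4, div_pow, ← pow_mul, ← hx, ← pow_mul, mul_comm]

end

section NF

variable {p : ℕ} [Fact p.Prime] {K : Type} [Field K] [NumberField K]

theorem coe_thetaTwo {ζ : K} (hζ : IsPrimitiveRoot ζ p) :
    ((thetaTwo hζ : 𝓞 K) : K) = ∏ b ∈ Finset.Ico 1 p, (ζ ^ b - 1) ^ eExp p b := by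
  haveI : NeZero p := ⟨(Fact.out : p.Prime).ne_zero⟩
  unfold thetaTwo
  have hz : algebraMap (𝓞 K) K hζ.toInteger = ζ := hζ.coe_toInteger
  change algebraMap (𝓞 K) K (∏ b ∈ Finset.Ico 1 p, (hζ.toInteger ^ b - 1) ^ eExp p b) = _
  rw [map_prod]
  refine Finset.prod_congr rfl fun b _ => ?_
  rw [map_pow, map_sub, map_pow, map_one, hz]

/-- `θ₂` is not a `p`-th power in `K` (given the unit-side statement `eta_not_pow`). -/
theorem thetaTwo_not_pow (hp : 3 ≤ p) {ζ : K} (hζ : IsPrimitiveRoot ζ p)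
    (hη : ∀ x : K, x ^ p ≠ ∏ b ∈ Finset.Ico 1 p, (1 + ζ ^ b) ^ eExp p b) (x : K) :
    x ^ p ≠ ((thetaTwo hζ : 𝓞 K) : K) := by
  rw [coe_thetaTwo]
  exact prod_sub_one_not_pow hp hζ hη x

end NF

end Fermat.Agent.S14.H70
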