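import Mathlib
import Fermat.Agent.S14.H70.Defs
import Fermat.Agent.S14.H70.ClassKill
import Fermat.Agent.S14.H70.Glue

/-!
# S14 (helper70): CLASS from THAINE + DENS + the unit-side `eta_not_pow` (taken as hypotheses)
-/

set_option autoImplicit false
set_option linter.unusedSectionVars false

namespace Fermat.Agent.S14.H70

open NumberField IsDedekindDomain
open scoped nonZeroDivisors

variable {p : ℕ} [Fact p.Prime] {K : Type} [Field K] [NumberField K]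

/-- the statement of package T (THAINE), as a proposition. -/
def ThaineStmt {ζ : K} (hζ : IsPrimitiveRoot ζ p) : Prop :=
  ∀ χ : ClassGroup (𝓞 K) →* Multiplicative (ZMod p), IsEigenChar hζ χ →
    ∀ Q : (Ideal (𝓞 K))⁰, (Q : Ideal (𝓞 K)).IsPrime →
      (Ideal.absNorm (Q : Ideal (𝓞 K))).Prime → (p : 𝓞 K) ∉ (Q : Ideal (𝓞 K)) →
      χ (ClassGroup.mk0 Q) ≠ 1 → ∃ y : 𝓞 K, thetaTwo hζ - y ^ p ∈ (Q : Ideal (𝓞 K))

/-- the statement of package D (DENS), as a proposition. -/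
def DensStmt (p : ℕ) (K : Type) [Field K] [NumberField K] : Prop :=
  ∀ η : 𝓞 K, (∀ x : K, x ^ p ≠ (η : K)) →
    ∀ lam : ClassGroup (𝓞 K) →* Multiplicative (ZMod p), lam ≠ 1 →
      ∃ Q : (Ideal (𝓞 K))⁰, (Q : Ideal (𝓞 K)).IsPrime ∧
        (Ideal.absNorm (Q : Ideal (𝓞 K))).Prime ∧ (p : 𝓞 K) ∉ (Q : Ideal (𝓞 K)) ∧
        lam (ClassGroup.mk0 Q) ≠ 1 ∧ ∀ y : 𝓞 K, η - y ^ p ∉ (Q : Ideal (𝓞 K))

/-- the statement `eta_not_pow` of package U, as a proposition. -/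
def EtaStmt (p : ℕ) {K : Type} [Field K] (ζ : K) : Prop :=
  ∀ x : K, x ^ p ≠ ∏ b ∈ Finset.Ico 1 p, (1 + ζ ^ b) ^ eExp p b

theorem noEigenChar_of (hp : 3 ≤ p) {ζ : K} (hζ : IsPrimitiveRoot ζ p)
    (hη : EtaStmt p ζ) (hT : ThaineStmt hζ) (hD : DensStmt p K)
    (χ : ClassGroup (𝓞 K) →* Multiplicative (ZMod p)) (hχ : IsEigenChar hζ χ) : χ = 1 := by
  by_contra hne
  obtain ⟨Q, hQ, hq, hQp, hQχ, hQn⟩ :=
    hD (thetaTwo hζ) (thetaTwo_not_pow hp hζ hη) χ hne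
  obtain ⟨y, hy⟩ := hT χ hχ Q hQ hq hQp hQχ
  exact hQn y hy

/-- **CLASS**: an `ω²`-eigenclass killed by `p` is trivial. -/
theorem class_eq_one_of (hp : 3 ≤ p) [IsCyclotomicExtension {p} ℚ K] {ζ : K}
    (hζ : IsPrimitiveRoot ζ p) (hη : EtaStmt p ζ) (hT : ThaineStmt hζ) (hD : DensStmt p K)
    (𝔞 : (Ideal (𝓞 K))⁰) (hx : ClassGroup.mk0 𝔞 ^ p = 1)
    (hxe : ∀ (σ : K ≃ₐ[ℚ] K) (n : ℕ), σ ζ = ζ ^ n → ∀ J : (Ideal (𝓞 K))⁰,
      (J : Ideal (𝓞 K)) = (𝔞 : Ideal (𝓞 K)).map (galRestrict ℤ ℚ K (𝓞 K) σ) →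
      ClassGroup.mk0 J = ClassGroup.mk0 𝔞 ^ (n ^ 2)) :
    ClassGroup.mk0 𝔞 = 1 := by
  refine class_eq_one_of_noEigenChar hζ (noEigenChar_of hp hζ hη hT hD) _ hx fun σ => ?_
  rw [clMap_mk0]
  exact hxe σ (gexp hζ σ) (gexp_spec hζ σ) (mapNZ (gRing σ) 𝔞) rfl

end Fermat.Agent.S14.H70
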