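import Mathlib
import Fermat.Agent.S14.H70.Assembly
import Fermat.Agent.S14.H70.ClassFinal
import Fermat.Agent.S14.H80.Key
import Fermat.Agent.S14.H71.ThaineGlue
import Fermat.Agent.S14.H32.DensFinal
import Fermat.Agent.S14.H12.ClassLSeries
import Fermat.Agent.S14.H42.KummerBound
import Fermat.Agent.S14.H11.Eta2
import Fermat.Agent.S14.H34.A3
import Fermat.Agent.S14.H47.A4
import Fermat.Agent.S14.H4.Dictionary

/-!
# S14 (helper70): wiring of all landed packages; the only remaining inputs are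
`UnitStmt` (package U: `unit_case`) and `ThaineFieldStmt` (package T-field).
-/

set_option autoImplicit false
set_option linter.unusedSectionVars false
set_option linter.style.haveILetI false

namespace Fermat.Agent.S14.H70

open ExtCitation IntermediateField NumberField IsDedekindDomain ValuationSubring
open scoped nonZeroDivisors

local notation "Qb" => AlgebraicClosure ℚ
local notation "G" => (AlgebraicClosure ℚ ≃ₐ[ℚ] AlgebraicClosure ℚ)

/-- statement of package U (`unit_case`). -/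
def UnitStmt (p : ℕ) [Fact p.Prime] : Prop :=
  ∀ (K : Type) [Field K] [NumberField K] [IsCyclotomicExtension {p} ℚ K] {ζ : K}
    (hζ : IsPrimitiveRoot ζ p) (u : (𝓞 K)ˣ),
    (∀ (σ : K ≃ₐ[ℚ] K) (n : ℕ), σ ζ = ζ ^ n →
      ∃ v : (𝓞 K)ˣ, σ ((u : 𝓞 K) : K) = ((u : 𝓞 K) : K) ^ (n ^ 2) * ((v : 𝓞 K) : K) ^ p) →
    (haveI : NeZero p := ⟨(Fact.out : p.Prime).ne_zero⟩
      ∃ y : 𝓞 K, (u : 𝓞 K) - y ^ p ∈ Ideal.span {(hζ.toInteger - 1) ^ 3}) →
    ∃ v : (𝓞 K)ˣ, u = v ^ p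

/-- statement of package T-field (`ThaineFieldData` at every degree-one prime not over `p`). -/
def ThaineFieldStmt (p : ℕ) [Fact p.Prime] : Prop :=
  ∀ (K : Type) [Field K] [NumberField K] [IsCyclotomicExtension {p} ℚ K] {ζ : K}
    (_hζ : IsPrimitiveRoot ζ p) (Q : (Ideal (𝓞 K))⁰), (Q : Ideal (𝓞 K)).IsPrime →
    (Ideal.absNorm (Q : Ideal (𝓞 K))).Prime → (p : 𝓞 K) ∉ (Q : Ideal (𝓞 K)) →
    H71.ThaineFieldData ζ (Ideal.absNorm (Q : Ideal (𝓞 K)))

variable {p : ℕ} [Fact p.Prime]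

/-- **DENS** (all leaves landed). -/
theorem densStmt (hp : 3 ≤ p) (K : Type) [Field K] [NumberField K] {ζ : K}
    (hζ : IsPrimitiveRoot ζ p) : DensStmt p K := by
  intro η hη lam hlam
  exact H32.exists_prime_char_ne_one_not_pow_of hp η hη lam hlam
    (fun χ hχ => H12.exists_bound_classLSeries K χ hχ)
    (H42.kummer_split_bound K p ζ hζ η hη)

/-- **THAINE** from T-field. -/
theorem thaineStmt_of (hF : ThaineFieldStmt p) (K : Type) [Field K] [NumberField K]
    [IsCyclotomicExtension {p} ℚ K] {ζ : K} (hζ : IsPrimitiveRoot ζ p) : ThaineStmt hζ := by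
  intro χ hχ Q hQ hq hQp hQχ
  exact H71.thaine_char_of_fieldData hζ χ hχ Q hQ hq hQp hQχ (hF K hζ Q hQ hq hQp)

/-- **KEY** from U and T-field. -/
theorem keyStmt_of (hp : 3 ≤ p) (hU : 5 ≤ p → UnitStmt p) (hF : 5 ≤ p → ThaineFieldStmt p) :
    KeyStmt p := by
  intro K _ _ _ ζ hζ a ha h_eig h_val h_loc
  refine H80.key_of_class hp hζ (fun hp5 u he hl => hU hp5 K hζ u he hl)
    (fun hp5 𝔞 hx hxe => ?_) a ha h_eig h_val h_loc
  exact class_eq_one_of hp hζ (fun x => H11.eta_not_pow hp5 hζ x)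
    (thaineStmt_of (hF hp5) K hζ) (densStmt hp K hζ) 𝔞 hx hxe

theorem a3Stmt : A3Stmt p := by
  intro K _ ζ hζ hζK θ a ha hθ ℓ hℓ hI v hv
  exact H34.cnt_dvd_of_inertia_fixes K ζ hζ hζK θ a ha hθ ℓ hℓ hI v hv

theorem a4Stmt : A4Stmt p := by
  intro K _ ζ hζ hζK θ a ha hθ ℓ hℓ hD v hv
  exact H47.loc_of_decomposition_fixes_of_A0 K ζ hζ hζK θ a ha hθ ℓ hℓ hD v hv
    (H4.exists_valuationSubring_over K v ℓ hℓ hv)
    (fun L _ Q _ σ₀ h => H4.exists_lift_decomposition L Q σ₀ h)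

/-- **S14** from the two remaining packages U and T-field. -/
theorem extVanishingCts_of_unit_thaineField (hp : 3 ≤ p) (hU : 5 ≤ p → UnitStmt p)
    (hF : 5 ≤ p → ThaineFieldStmt p) : ExtVanishingCts p :=
  extVanishingCts_of hp (keyStmt_of hp hU hF) a3Stmt a4Stmt

end Fermat.Agent.S14.H70
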